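import Mathlib
import Fermat.Prelude.Def_GaloisRep_CompletionBridge
import Fermat.Agent.S55.H175.LocalDecomp

set_option autoImplicit false
set_option linter.style.haveILetI false

/-!
# B11, part 1: the local level `F_q = ℚ_q · ι(F)` of a global level `F ⊆ ℚ̄`

For an intermediate field `F` of `ℚ̄/ℚ` and a prime `q`, `localLevel q F` is the subfield of
`ℚ̄_q = PadicAlgCl q` generated over `ℚ_q` by the image of `F` under the Prelude embedding
`padicEmbedding q : ℚ̄ → ℚ̄_q`.

* `localLevel_adjoin` : `(ℚ(s))_q = ℚ_q(ι s)`;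
* `finiteDimensional_localLevel` : `F/ℚ` finite ⇒ `F_q/ℚ_q` finite;
* `normal_localLevel`, `isGalois_localLevel` : `F/ℚ` normal ⇒ `F_q/ℚ_q` normal (Galois);
* `comap_fixingSubgroup` : `(localGaloisToGlobal q)⁻¹ (G_F) = Gal(ℚ̄_q / F_q)`.
-/

open scoped NNReal Pointwise

namespace Fermat.Agent.S55.Bridge.H175

variable (q : ℕ) [Fact q.Prime]

/-- The local level `F_q := ℚ_q · ι(F) ⊆ ℚ̄_q` attached to a global level `F ⊆ ℚ̄`. -/
noncomputable def localLevel (F : IntermediateField ℚ (AlgebraicClosure ℚ)) :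
    IntermediateField ℚ_[q] (PadicAlgCl q) :=
  IntermediateField.adjoin ℚ_[q] ((padicEmbedding q) '' (F : Set (AlgebraicClosure ℚ)))

variable {q}

theorem padicEmbedding_mem_localLevel {F : IntermediateField ℚ (AlgebraicClosure ℚ)}
    {x : AlgebraicClosure ℚ} (hx : x ∈ F) : padicEmbedding q x ∈ localLevel q F :=
  IntermediateField.subset_adjoin _ _ ⟨x, hx, rfl⟩

theorem localLevel_mono {F F' : IntermediateField ℚ (AlgebraicClosure ℚ)} (h : F ≤ F') :
    localLevel q F ≤ localLevel q F' :=
  IntermediateField.adjoin.mono _ _ _ (Set.image_mono h)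

variable (q)

/-- `ι⁻¹` of an intermediate field of `ℚ̄_q/ℚ_q` is an intermediate field of `ℚ̄/ℚ`. -/
noncomputable def globalTrace (E : IntermediateField ℚ_[q] (PadicAlgCl q)) :
    IntermediateField ℚ (AlgebraicClosure ℚ) where
  carrier := {x | padicEmbedding q x ∈ E}
  mul_mem' := fun {a b} ha hb => by
    change padicEmbedding q (a * b) ∈ E
    rw [map_mul]
    exact E.mul_mem ha hb
  one_mem' := by
    change padicEmbedding q 1 ∈ E
    rw [map_one]
    exact E.one_mem
  add_mem' := fun {a b} ha hb => by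
    change padicEmbedding q (a + b) ∈ E
    rw [map_add]
    exact E.add_mem ha hb
  zero_mem' := by
    change padicEmbedding q 0 ∈ E
    rw [map_zero]
    exact E.zero_mem
  algebraMap_mem' := fun r => by
    change padicEmbedding q (algebraMap ℚ (AlgebraicClosure ℚ) r) ∈ E
    rw [AlgHom.commutes]
    have : (algebraMap ℚ (PadicAlgCl q)) r = algebraMap ℚ_[q] (PadicAlgCl q) (r : ℚ_[q]) := by
      simp
    rw [this]
    exact E.algebraMap_mem _
  inv_mem' := fun x hx => by
    change padicEmbedding q x⁻¹ ∈ E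
    rw [map_inv₀]
    exact E.inv_mem hx

variable {q}

theorem mem_globalTrace {E : IntermediateField ℚ_[q] (PadicAlgCl q)} {x : AlgebraicClosure ℚ} :
    x ∈ globalTrace q E ↔ padicEmbedding q x ∈ E := Iff.rfl

theorem localLevel_le_iff {F : IntermediateField ℚ (AlgebraicClosure ℚ)}
    {E : IntermediateField ℚ_[q] (PadicAlgCl q)} :
    localLevel q F ≤ E ↔ F ≤ globalTrace q E := by
  unfold localLevel
  rw [IntermediateField.adjoin_le_iff]
  constructor
  · intro h x hx
    exact h ⟨x, hx, rfl⟩
  · rintro h _ ⟨x, hx, rfl⟩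
    exact h hx

variable (q)

/-- `(ℚ(s))_q = ℚ_q(ι(s))`. -/
theorem localLevel_adjoin (s : Set (AlgebraicClosure ℚ)) :
    localLevel q (IntermediateField.adjoin ℚ s) =
      IntermediateField.adjoin ℚ_[q] ((padicEmbedding q) '' s) := by
  apply le_antisymm
  · rw [localLevel_le_iff, IntermediateField.adjoin_le_iff]
    intro x hx
    exact IntermediateField.subset_adjoin _ _ ⟨x, hx, rfl⟩
  · exact IntermediateField.adjoin.mono _ _ _
      (Set.image_mono (IntermediateField.subset_adjoin ℚ s))

/-- A finite global level has a finite local level. -/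
theorem finiteDimensional_localLevel (F : IntermediateField ℚ (AlgebraicClosure ℚ))
    [FiniteDimensional ℚ F] : FiniteDimensional ℚ_[q] (localLevel q F) := by
  obtain ⟨β, hβ⟩ := Field.exists_primitive_element ℚ F
  have hF : F = IntermediateField.adjoin ℚ {(β : AlgebraicClosure ℚ)} := by
    have h1 : IntermediateField.lift (IntermediateField.adjoin ℚ {β})
        = IntermediateField.adjoin ℚ {(β : AlgebraicClosure ℚ)} := by
      rw [IntermediateField.lift_adjoin, Set.image_singleton]
    apply le_antisymm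
    · intro y hy
      have hy' : (⟨y, hy⟩ : F) ∈ IntermediateField.adjoin ℚ {β} := by rw [hβ]; trivial
      rw [← h1]
      exact (IntermediateField.mem_lift (⟨y, hy⟩ : F)).2 hy'
    · rw [IntermediateField.adjoin_le_iff]
      intro y hy
      rw [Set.mem_singleton_iff] at hy
      subst hy
      exact β.2
  rw [hF, localLevel_adjoin, Set.image_singleton]
  exact IntermediateField.adjoin.finiteDimensional (Algebra.IsIntegral.isIntegral _)

/-- `τ(ι x) = ι(σ_τ x)`, restated. -/
theorem algEquiv_padicEmbedding (τ : PadicAlgCl q ≃ₐ[ℚ_[q]] PadicAlgCl q)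
    (x : AlgebraicClosure ℚ) :
    τ (padicEmbedding q x) = padicEmbedding q (localGaloisToGlobal q τ x) :=
  (padicEmbedding_localGaloisToGlobal q τ x).symm

/-- A normal global level is stable under `Gal(ℚ̄/ℚ)`. -/
theorem apply_mem_of_normal (F : IntermediateField ℚ (AlgebraicClosure ℚ)) [hF : Normal ℚ F]
    (σ : AlgebraicClosure ℚ ≃ₐ[ℚ] AlgebraicClosure ℚ) {x : AlgebraicClosure ℚ} (hx : x ∈ F) :
    σ x ∈ F := by
  have : Algebra.IsAlgebraic ℚ (AlgebraicClosure ℚ) := AlgebraicClosure.isAlgebraic ℚ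
  have : IsAlgClosure ℚ (AlgebraicClosure ℚ) := ⟨inferInstance, inferInstance⟩
  have : Normal ℚ (AlgebraicClosure ℚ) := IsAlgClosure.normal ℚ (AlgebraicClosure ℚ)
  have h := (IntermediateField.normal_iff_forall_map_le' (K := F)).mp hF σ
  exact h ⟨x, hx, rfl⟩

theorem normal_padicAlgCl : Normal ℚ_[q] (PadicAlgCl q) := by
  haveI : IsAlgClosure ℚ_[q] (PadicAlgCl q) := inferInstance
  exact IsAlgClosure.normal ℚ_[q] (PadicAlgCl q)

/-- The local level of a normal global level is normal over `ℚ_q`. -/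
theorem normal_localLevel (F : IntermediateField ℚ (AlgebraicClosure ℚ)) [Normal ℚ F] :
    Normal ℚ_[q] (localLevel q F) := by
  haveI := normal_padicAlgCl q
  rw [IntermediateField.normal_iff_forall_map_le']
  intro τ
  unfold localLevel
  rw [IntermediateField.adjoin_map, IntermediateField.adjoin_le_iff]
  rintro _ ⟨_, ⟨x, hx, rfl⟩, rfl⟩
  have h1 : ((τ : PadicAlgCl q ≃ₐ[ℚ_[q]] PadicAlgCl q) : PadicAlgCl q →ₐ[ℚ_[q]] PadicAlgCl q)
      (padicEmbedding q x) = padicEmbedding q (localGaloisToGlobal q τ x) :=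
    algEquiv_padicEmbedding q τ x
  rw [h1]
  exact IntermediateField.subset_adjoin _ _ ⟨_, apply_mem_of_normal F _ hx, rfl⟩

/-- The local level of a normal global level is Galois over `ℚ_q`. -/
theorem isGalois_localLevel (F : IntermediateField ℚ (AlgebraicClosure ℚ)) [Normal ℚ F] :
    IsGalois ℚ_[q] (localLevel q F) := by
  haveI := normal_localLevel q F
  exact isGalois_iff.mpr ⟨inferInstance, inferInstance⟩

/-- `τ ∈ Gal(ℚ̄_q/ℚ_q)` fixes `F_q` iff its restriction to `ℚ̄` fixes `F`. -/
theorem mem_fixingSubgroup_localLevel_iff (F : IntermediateField ℚ (AlgebraicClosure ℚ))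
    (τ : PadicAlgCl q ≃ₐ[ℚ_[q]] PadicAlgCl q) :
    τ ∈ (localLevel q F).fixingSubgroup ↔ localGaloisToGlobal q τ ∈ F.fixingSubgroup := by
  rw [IntermediateField.mem_fixingSubgroup_iff, IntermediateField.mem_fixingSubgroup_iff]
  constructor
  · intro h x hx
    apply Fermat.Agent.S55.H175.padicEmbedding_injective q
    rw [padicEmbedding_localGaloisToGlobal]
    exact h _ (padicEmbedding_mem_localLevel hx)
  · intro h
    have hle : localLevel q F ≤ IntermediateField.fixedField (Subgroup.zpowers τ) := by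
      unfold localLevel
      rw [IntermediateField.adjoin_le_iff]
      rintro _ ⟨x, hx, rfl⟩
      rintro ⟨σ, hσ⟩
      obtain ⟨n, rfl⟩ := Subgroup.mem_zpowers_iff.1 hσ
      show (τ ^ n) (padicEmbedding q x) = padicEmbedding q x
      have hfix : τ ∈ MulAction.stabilizer (PadicAlgCl q ≃ₐ[ℚ_[q]] PadicAlgCl q)
          (padicEmbedding q x) := by
        rw [MulAction.mem_stabilizer_iff]
        show τ (padicEmbedding q x) = padicEmbedding q x
        rw [algEquiv_padicEmbedding, h x hx]
      exact (Subgroup.zpow_mem _ hfix n : _)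
    intro y hy
    exact hle hy ⟨τ, Subgroup.mem_zpowers τ⟩

/-- **`(localGaloisToGlobal q)⁻¹(G_F) = Gal(ℚ̄_q/F_q)`.** -/
theorem comap_fixingSubgroup (F : IntermediateField ℚ (AlgebraicClosure ℚ)) :
    F.fixingSubgroup.comap (localGaloisToGlobal q) = (localLevel q F).fixingSubgroup := by
  ext τ
  rw [Subgroup.mem_comap, mem_fixingSubgroup_localLevel_iff]

end Fermat.Agent.S55.Bridge.H175
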