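import Mathlib
import Fermat.Prelude.Def_GaloisRep_CompletionBridge
import Fermat.Agent.S55.H175.LocalDecomp
import Fermat.Agent.S55.Bridge.H175.LocalLevel

set_option autoImplicit false
set_option linter.style.haveILetI false

/-!
# B11, part 2: `Gal(F_q/ℚ_q) ≃* D_q(F) ⊆ Gal(F/ℚ)`

For a normal intermediate field `F` of `ℚ̄/ℚ`:

* `toLevel q F : Gal(ℚ̄_q/ℚ_q) →* Gal(F/ℚ)`, `τ ↦ (localGaloisToGlobal q τ)|_F`;
* `decompositionAt q F := (toLevel q F).range` (the decomposition group `D_q(F)`);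
* `ker_toLevel : (toLevel q F).ker = Gal(ℚ̄_q/F_q)`;
* `localLevelGalEquiv q F : Gal(F_q/ℚ_q) ≃* D_q(F)` with
  `ι ((localLevelGalEquiv q F τ̄) x) = τ̄ (ι x)` for `x ∈ F`.
-/

open scoped NNReal Pointwise

namespace Fermat.Agent.S55.Bridge.H175

variable (q : ℕ) [Fact q.Prime]
variable (F : IntermediateField ℚ (AlgebraicClosure ℚ)) [hFn : Normal ℚ F]

instance instNormalLocalLevel : Normal ℚ_[q] (localLevel q F) := normal_localLevel q F

instance instIsGaloisLocalLevel : IsGalois ℚ_[q] (localLevel q F) := isGalois_localLevel q F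

/-- `Gal(ℚ̄_q/ℚ_q) → Gal(F/ℚ)`: restrict to `ℚ̄` along `ι`, then to `F`. -/
noncomputable def toLevel : (PadicAlgCl q ≃ₐ[ℚ_[q]] PadicAlgCl q) →* (F ≃ₐ[ℚ] F) :=
  (AlgEquiv.restrictNormalHom (F := ℚ) (K₁ := AlgebraicClosure ℚ) F).comp (localGaloisToGlobal q)

theorem toLevel_apply_coe (τ : PadicAlgCl q ≃ₐ[ℚ_[q]] PadicAlgCl q) (x : F) :
    ((toLevel q F τ x : F) : AlgebraicClosure ℚ) = localGaloisToGlobal q τ (x : AlgebraicClosure ℚ) :=
  AlgEquiv.restrictNormal_commutes (localGaloisToGlobal q τ) F x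

theorem padicEmbedding_toLevel (τ : PadicAlgCl q ≃ₐ[ℚ_[q]] PadicAlgCl q) (x : F) :
    padicEmbedding q ((toLevel q F τ x : F) : AlgebraicClosure ℚ) =
      τ (padicEmbedding q (x : AlgebraicClosure ℚ)) := by
  rw [toLevel_apply_coe, padicEmbedding_localGaloisToGlobal]

/-- The decomposition group at `q` in `Gal(F/ℚ)` (with respect to the place `ι`). -/
noncomputable def decompositionAt : Subgroup (F ≃ₐ[ℚ] F) := (toLevel q F).range

theorem toLevel_mem_decompositionAt (τ : PadicAlgCl q ≃ₐ[ℚ_[q]] PadicAlgCl q) :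
    toLevel q F τ ∈ decompositionAt q F := ⟨τ, rfl⟩

theorem decompositionAt_eq_map :
    decompositionAt q F = ((padicPlace q).decompositionSubgroup ℚ).map
      (AlgEquiv.restrictNormalHom (F := ℚ) (K₁ := AlgebraicClosure ℚ) F) := by
  unfold decompositionAt toLevel
  rw [MonoidHom.range_comp, Fermat.Agent.S55.H175.range_localGaloisToGlobal]

/-- **`ker (Gal(ℚ̄_q/ℚ_q) → Gal(F/ℚ)) = Gal(ℚ̄_q/F_q)`.** -/
theorem ker_toLevel : (toLevel q F).ker = (localLevel q F).fixingSubgroup := by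
  have h : (AlgEquiv.restrictNormalHom (F := ℚ) (K₁ := AlgebraicClosure ℚ) F).ker =
      F.fixingSubgroup := @IntermediateField.restrictNormalHom_ker _ _ _ _ _ F hFn
  unfold toLevel
  rw [← MonoidHom.comap_ker, h, comap_fixingSubgroup]

/-- Restriction `Gal(ℚ̄_q/ℚ_q) → Gal(F_q/ℚ_q)`. -/
noncomputable def locRes :
    (PadicAlgCl q ≃ₐ[ℚ_[q]] PadicAlgCl q) →* (localLevel q F ≃ₐ[ℚ_[q]] localLevel q F) :=
  AlgEquiv.restrictNormalHom (F := ℚ_[q]) (K₁ := PadicAlgCl q) (localLevel q F)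

theorem locRes_apply_coe (τ : PadicAlgCl q ≃ₐ[ℚ_[q]] PadicAlgCl q) (y : localLevel q F) :
    ((locRes q F τ y : localLevel q F) : PadicAlgCl q) = τ (y : PadicAlgCl q) :=
  AlgEquiv.restrictNormal_commutes τ (localLevel q F) y

theorem locRes_surjective : Function.Surjective (locRes q F) := by
  haveI := normal_padicAlgCl q
  exact AlgEquiv.restrictNormalHom_surjective (F := ℚ_[q]) (K₁ := localLevel q F) (PadicAlgCl q)

theorem ker_locRes : (locRes q F).ker = (localLevel q F).fixingSubgroup :=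
  IntermediateField.restrictNormalHom_ker (localLevel q F)

theorem ker_locRes_eq_ker_toLevel : (locRes q F).ker = (toLevel q F).ker := by
  rw [ker_locRes, ker_toLevel]

/-- **`Gal(F_q/ℚ_q) ≃* D_q(F)`.** -/
noncomputable def localLevelGalEquiv :
    (localLevel q F ≃ₐ[ℚ_[q]] localLevel q F) ≃* decompositionAt q F :=
  ((QuotientGroup.quotientKerEquivOfSurjective (locRes q F) (locRes_surjective q F)).symm.trans
    (QuotientGroup.quotientMulEquivOfEq (ker_locRes_eq_ker_toLevel q F))).trans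
    ((QuotientGroup.quotientKerEquivRange (toLevel q F) :
      _ ≃* (toLevel q F).range) : _ ≃* decompositionAt q F)

theorem localLevelGalEquiv_locRes (τ : PadicAlgCl q ≃ₐ[ℚ_[q]] PadicAlgCl q) :
    ((localLevelGalEquiv q F (locRes q F τ) : decompositionAt q F) : F ≃ₐ[ℚ] F) =
      toLevel q F τ := by
  have h1 : (QuotientGroup.quotientKerEquivOfSurjective (locRes q F)
      (locRes_surjective q F)).symm (locRes q F τ) = (τ : _ ⧸ (locRes q F).ker) := by
    rw [MulEquiv.symm_apply_eq]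
    rfl
  change ((QuotientGroup.quotientKerEquivRange (toLevel q F)
    ((QuotientGroup.quotientMulEquivOfEq (ker_locRes_eq_ker_toLevel q F))
      ((QuotientGroup.quotientKerEquivOfSurjective (locRes q F)
        (locRes_surjective q F)).symm (locRes q F τ))) : (toLevel q F).range) : F ≃ₐ[ℚ] F) = _
  rw [h1]
  rfl

/-- The isomorphism is "the identity on `ι(F)`": `ι(σ̄ x) = τ̄(ι x)`. -/
theorem padicEmbedding_localLevelGalEquiv (τ' : localLevel q F ≃ₐ[ℚ_[q]] localLevel q F) (x : F) :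
    padicEmbedding q
        ((((localLevelGalEquiv q F τ' : decompositionAt q F) : F ≃ₐ[ℚ] F) x : F) :
          AlgebraicClosure ℚ) =
      ((τ' ⟨padicEmbedding q (x : AlgebraicClosure ℚ), padicEmbedding_mem_localLevel x.2⟩ :
        localLevel q F) : PadicAlgCl q) := by
  obtain ⟨τ, rfl⟩ := locRes_surjective q F τ'
  rw [localLevelGalEquiv_locRes, padicEmbedding_toLevel, locRes_apply_coe]

theorem card_decompositionAt [FiniteDimensional ℚ F] :
    Nat.card (decompositionAt q F) = Module.finrank ℚ_[q] (localLevel q F) := by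
  haveI := finiteDimensional_localLevel q F
  rw [← Nat.card_congr (localLevelGalEquiv q F).toEquiv]
  exact IsGalois.card_aut_eq_finrank ℚ_[q] (localLevel q F)

end Fermat.Agent.S55.Bridge.H175
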