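import Mathlib
import Fermat.Prelude.Def_GaloisRep_CompletionBridge
import Fermat.Agent.S54.FrobExists
import Fermat.Agent.S13.H175.InertiaLift
import Fermat.Agent.S55.H175.LocalDecompPrime
import Fermat.Agent.S55.Bridge.H175.LevelGalois

set_option autoImplicit false
set_option linter.style.haveILetI false

/-!
# B11, part 3 (and the decomposition half of B14)

* `exists_stabilizer_lift` : abstract profinite lifting of stabilisers along a closed normal
  subgroup;
* `exists_decomposition_lift` : for a valuation subring `A` of `ℚ̄` over a prime and a normal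
  level `F`, every `g₀ ∈ Gal(ℚ̄/ℚ)` whose restriction to `F` stabilises `A ∩ F` agrees on `F` with
  an element of the decomposition group of `A`;
* `map_decompositionSubgroup` : `res_F (D_A) = D_{A ∩ F}`;
* `decompositionAt_eq` : the image `D_q(F)` of `Gal(ℚ̄_q/ℚ_q)` in `Gal(F/ℚ)` is the decomposition
  group of the valuation subring `{x ∈ F | ‖ι x‖ ≤ 1}` of `F`.
-/

open scoped NNReal Pointwise

namespace Fermat.Agent.S55.Bridge.H175

section Abstract

universe u

variable {B : Type*} [CommRing B]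
variable {G : Type u} [Group G] [MulSemiringAction G B]
variable [TopologicalSpace G] [CompactSpace G] [TotallyDisconnectedSpace G]
variable [IsTopologicalGroup G] [TopologicalSpace B] [DiscreteTopology B] [ContinuousSMul G B]

/-- `G` profinite acting continuously on a discrete ring `B`, `N` closed normal, `Q` a prime of
`B`.  If `g₀` preserves `Q` on the `N`-invariants, some element of `N g₀` stabilises `Q`. -/
theorem exists_stabilizer_lift (N : Subgroup G) [hn : N.Normal] (hN : IsClosed (N : Set G))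
    (Q : Ideal B) [hQ : Q.IsPrime] (g₀ : G)
    (h₀ : ∀ x : B, (∀ n ∈ N, n • x = x) → (g₀ • x ∈ Q ↔ x ∈ Q)) :
    ∃ n ∈ N, (n * g₀) • Q = Q := by
  have : CompactSpace N := isCompact_iff_compactSpace.mp hN.isCompact
  have := Fermat.Agent.S13.H175.isInvariant_fixedPoints (B := B) N
  have hunder : (g₀ • Q).under (FixedPoints.subalgebra ℤ B N) =
      Q.under (FixedPoints.subalgebra ℤ B N) := by
    ext ⟨x, hx⟩
    have hx' : ∀ n ∈ N, n • x = x := fun n hn' => hx ⟨n, hn'⟩
    simp only [Ideal.mem_comap]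
    show x ∈ g₀ • Q ↔ x ∈ Q
    rw [Ideal.mem_pointwise_smul_iff_inv_smul_mem]
    have hy : ∀ n ∈ N, n • (g₀⁻¹ • x) = g₀⁻¹ • x :=
      Fermat.Agent.S13.H175.smul_mem_fixedPoints N g₀⁻¹ hx'
    have h1 := h₀ _ hy
    rw [smul_inv_smul] at h1
    exact h1.symm
  obtain ⟨n, hn1⟩ := Algebra.IsInvariant.exists_smul_of_under_eq_of_profinite
    (A := FixedPoints.subalgebra ℤ B N) (G := N) (g₀ • Q) Q hunder
  refine ⟨n, n.2, ?_⟩
  rw [mul_smul]
  exact hn1.symm

end Abstract

/-- An automorphism of an algebraic extension `K` of `ℚ` which preserves the prime of the ring of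
integers below a valuation subring `A` (over a rational prime) stabilises `A`. -/
theorem smul_valuationSubring_eq_of_algebraic {K : Type*} [Field K] [CharZero K]
    [Algebra.IsAlgebraic ℚ K] (A : ValuationSubring K) (ℓ : ℕ)
    (hℓ : ℓ.Prime) (hA : A.LiesOverPrime ℓ) (σ : K ≃ₐ[ℚ] K)
    (h : ∀ b : K, IsIntegral ℤ b → (σ b ∈ A.nonunits ↔ b ∈ A.nonunits)) :
    σ • A = A := by
  have hint : ∀ (τ : K ≃ₐ[ℚ] K) (x : K), IsIntegral ℤ x → IsIntegral ℤ (τ x) :=
    fun τ x hx => hx.map τ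
  have h' : ∀ b : K, IsIntegral ℤ b → (σ.symm b ∈ A.nonunits ↔ b ∈ A.nonunits) := by
    intro b hb
    have h1 := h (σ.symm b) (hint σ.symm b hb)
    rw [AlgEquiv.apply_symm_apply] at h1
    exact h1.symm
  have key : ∀ (τ : K ≃ₐ[ℚ] K),
      (∀ b : K, IsIntegral ℤ b → (τ b ∈ A.nonunits ↔ b ∈ A.nonunits)) →
      ∀ x : K, x ∈ A → τ x ∈ A := by
    intro τ hτ x hx
    obtain ⟨b, s, hb, hs, hsA, hxs⟩ :=
      (Fermat.Agent.S54.mem_valuationSubring_iff A ℓ hℓ hA x).mp hx
    refine (Fermat.Agent.S54.mem_valuationSubring_iff A ℓ hℓ hA (τ x)).mpr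
      ⟨τ b, τ s, hint τ b hb, hint τ s hs, fun hc => hsA ((hτ s hs).mp hc), ?_⟩
    rw [← map_mul, hxs]
  apply le_antisymm
  · intro y hy
    obtain ⟨x, hx, rfl⟩ := (ValuationSubring.mem_smul_pointwise_iff_exists σ y A).mp hy
    exact key σ h x hx
  · intro y hy
    rw [ValuationSubring.mem_smul_pointwise_iff_exists]
    refine ⟨σ.symm y, key σ.symm h' y hy, ?_⟩
    simp

/-- An automorphism of `ℚ̄` preserving the prime of `ℤ̄` below `A` stabilises `A`. -/
theorem smul_valuationSubring_eq (A : ValuationSubring (AlgebraicClosure ℚ)) (ℓ : ℕ)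
    (hℓ : ℓ.Prime) (hA : A.LiesOverPrime ℓ)
    (σ : AlgebraicClosure ℚ ≃ₐ[ℚ] AlgebraicClosure ℚ)
    (h : ∀ b : AlgebraicClosure ℚ, IsIntegral ℤ b → (σ b ∈ A.nonunits ↔ b ∈ A.nonunits)) :
    σ • A = A := by
  have : Algebra.IsAlgebraic ℚ (AlgebraicClosure ℚ) := AlgebraicClosure.isAlgebraic ℚ
  exact smul_valuationSubring_eq_of_algebraic A ℓ hℓ hA σ h

/-- Elements of the decomposition group preserve the maximal ideal. -/
theorem apply_mem_nonunits_iff {L : Type*} [Field L] {K : Type*} [Field K] [Algebra K L]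
    (A : ValuationSubring L) (σ : L ≃ₐ[K] L)
    (h : ∀ x : L, σ x ∈ A ↔ x ∈ A) (y : L) : σ y ∈ A.nonunits ↔ y ∈ A.nonunits := by
  rw [ValuationSubring.mem_nonunits_iff_or, ValuationSubring.mem_nonunits_iff_or,
    ← map_inv₀, h, map_eq_zero_iff σ σ.injective]

section Lift

variable (F : IntermediateField ℚ (AlgebraicClosure ℚ)) [hFn : Normal ℚ F]

/-- **Lifting decomposition elements** from a normal level `F` to `ℚ̄`. -/
theorem exists_decomposition_lift (A : ValuationSubring (AlgebraicClosure ℚ)) (ℓ : ℕ)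
    (hℓ : ℓ.Prime) (hA : A.LiesOverPrime ℓ)
    (g₀ : AlgebraicClosure ℚ ≃ₐ[ℚ] AlgebraicClosure ℚ)
    (h₀ : ∀ x ∈ F, (g₀ x ∈ A ↔ x ∈ A)) :
    ∃ σ : AlgebraicClosure ℚ ≃ₐ[ℚ] AlgebraicClosure ℚ,
      σ ∈ A.decompositionSubgroup ℚ ∧ ∀ x ∈ F, σ x = g₀ x := by
  have hgal := Fermat.Agent.S54.isGalois_algebraicClosure_rat
  have hQprime := Fermat.Agent.S54.primeBelow_isPrime A
  set N : Subgroup (AlgebraicClosure ℚ ≃ₐ[ℚ] AlgebraicClosure ℚ) := F.fixingSubgroup with hNdef
  have hclosed : IsClosed (N : Set (AlgebraicClosure ℚ ≃ₐ[ℚ] AlgebraicClosure ℚ)) :=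
    InfiniteGalois.fixingSubgroup_isClosed F
  have hnormal : N.Normal := by
    rw [hNdef, ← @IntermediateField.restrictNormalHom_ker _ _ _ _ _ F hFn]
    exact MonoidHom.normal_ker _
  -- `g₀` preserves nonunits on `F`
  have h₀' : ∀ x ∈ F, (g₀ x ∈ A.nonunits ↔ x ∈ A.nonunits) := by
    intro x hx
    rw [ValuationSubring.mem_nonunits_iff_or, ValuationSubring.mem_nonunits_iff_or,
      ← map_inv₀, h₀ _ (F.inv_mem hx), map_eq_zero_iff g₀ g₀.injective]
  have h₁ : ∀ x : integralClosure ℤ (AlgebraicClosure ℚ),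
      (∀ n ∈ N, n • x = x) →
        (g₀ • x ∈ Fermat.Agent.S54.primeBelow A ↔ x ∈ Fermat.Agent.S54.primeBelow A) := by
    intro x hx
    have hxF : (x : AlgebraicClosure ℚ) ∈ F := by
      rw [← InfiniteGalois.fixedField_fixingSubgroup F, IntermediateField.mem_fixedField_iff]
      intro f hf
      exact congrArg Subtype.val (hx f hf)
    rw [Fermat.Agent.S54.mem_primeBelow, Fermat.Agent.S54.mem_primeBelow]
    exact h₀' _ hxF
  letI : TopologicalSpace (integralClosure ℤ (AlgebraicClosure ℚ)) := ⊥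
  haveI : DiscreteTopology (integralClosure ℤ (AlgebraicClosure ℚ)) := ⟨rfl⟩
  haveI := Fermat.Agent.S54.continuousSMul_integralClosure
  obtain ⟨n, hnN, hσQ⟩ := exists_stabilizer_lift
    (G := AlgebraicClosure ℚ ≃ₐ[ℚ] AlgebraicClosure ℚ) N hclosed
    (Fermat.Agent.S54.primeBelow A) g₀ h₁
  refine ⟨n * g₀, ?_, ?_⟩
  · rw [ValuationSubring.decompositionSubgroup, MulAction.mem_stabilizer_iff]
    apply smul_valuationSubring_eq A ℓ hℓ hA
    intro b hb
    have h1 : (n * g₀) • (⟨b, hb⟩ : integralClosure ℤ (AlgebraicClosure ℚ)) ∈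
        (n * g₀) • Fermat.Agent.S54.primeBelow A ↔
        (⟨b, hb⟩ : integralClosure ℤ (AlgebraicClosure ℚ)) ∈ Fermat.Agent.S54.primeBelow A :=
      Ideal.smul_mem_pointwise_smul_iff
    rw [hσQ] at h1
    exact h1
  · intro x hx
    have h2 : g₀ x ∈ F := apply_mem_of_normal F g₀ hx
    exact (IntermediateField.mem_fixingSubgroup_iff F n).mp hnN _ h2

/-- The valuation subring `A ∩ F` of a level `F` induced by a valuation subring `A` of `ℚ̄`. -/
noncomputable def levelPlace (A : ValuationSubring (AlgebraicClosure ℚ)) : ValuationSubring F :=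
  A.comap (algebraMap F (AlgebraicClosure ℚ))

omit hFn in
theorem mem_levelPlace {A : ValuationSubring (AlgebraicClosure ℚ)} {x : F} :
    x ∈ levelPlace F A ↔ (x : AlgebraicClosure ℚ) ∈ A := Iff.rfl

theorem restrictNormalHom_apply_coe (σ : AlgebraicClosure ℚ ≃ₐ[ℚ] AlgebraicClosure ℚ) (x : F) :
    ((AlgEquiv.restrictNormalHom (F := ℚ) (K₁ := AlgebraicClosure ℚ) F σ x : F) :
      AlgebraicClosure ℚ) = σ (x : AlgebraicClosure ℚ) :=
  AlgEquiv.restrictNormal_commutes σ F x

/-- **B14, decomposition half: `res_F (D_A) = D_{A ∩ F}`.** -/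
theorem map_decompositionSubgroup (A : ValuationSubring (AlgebraicClosure ℚ)) (ℓ : ℕ)
    (hℓ : ℓ.Prime) (hA : A.LiesOverPrime ℓ) :
    (A.decompositionSubgroup ℚ).map
        (AlgEquiv.restrictNormalHom (F := ℚ) (K₁ := AlgebraicClosure ℚ) F) =
      (levelPlace F A).decompositionSubgroup ℚ := by
  apply le_antisymm
  · rintro _ ⟨σ, hσ, rfl⟩
    have hstab : σ • A = A := MulAction.mem_stabilizer_iff.mp hσ
    rw [ValuationSubring.decompositionSubgroup, MulAction.mem_stabilizer_iff]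
    ext x
    rw [ValuationSubring.mem_pointwise_smul_iff_inv_smul_mem, ← map_inv, AlgEquiv.smul_def,
      mem_levelPlace, mem_levelPlace, restrictNormalHom_apply_coe]
    have h1 : σ⁻¹ (x : AlgebraicClosure ℚ) ∈ A ↔ (x : AlgebraicClosure ℚ) ∈ σ • A :=
      (ValuationSubring.mem_pointwise_smul_iff_inv_smul_mem (g := σ) (S := A)
        (x := (x : AlgebraicClosure ℚ))).symm
    rw [h1, hstab]
  · intro σ' hσ'
    have hstab : σ' • levelPlace F A = levelPlace F A := MulAction.mem_stabilizer_iff.mp hσ'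
    have : Algebra.IsAlgebraic ℚ (AlgebraicClosure ℚ) := AlgebraicClosure.isAlgebraic ℚ
    have : IsAlgClosure ℚ (AlgebraicClosure ℚ) := ⟨inferInstance, inferInstance⟩
    have : Normal ℚ (AlgebraicClosure ℚ) := IsAlgClosure.normal ℚ (AlgebraicClosure ℚ)
    obtain ⟨g₀, hg₀⟩ := AlgEquiv.restrictNormalHom_surjective (F := ℚ) (K₁ := F)
      (AlgebraicClosure ℚ) σ'
    have hg₀F : ∀ x : F, g₀ (x : AlgebraicClosure ℚ) = ((σ' x : F) : AlgebraicClosure ℚ) := by
      intro x
      rw [← hg₀]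
      exact (restrictNormalHom_apply_coe F g₀ x).symm
    have h₀ : ∀ x ∈ F, (g₀ x ∈ A ↔ x ∈ A) := by
      intro x hx
      have h1 := hg₀F ⟨x, hx⟩
      rw [show g₀ x = g₀ ((⟨x, hx⟩ : F) : AlgebraicClosure ℚ) from rfl, h1]
      have h2 : σ' • (⟨x, hx⟩ : F) ∈ σ' • levelPlace F A ↔ (⟨x, hx⟩ : F) ∈ levelPlace F A :=
        ValuationSubring.smul_mem_pointwise_smul_iff
      rw [hstab] at h2
      exact h2
    obtain ⟨σ, hσD, hσF⟩ := exists_decomposition_lift F A ℓ hℓ hA g₀ h₀
    refine ⟨σ, hσD, ?_⟩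
    ext x
    rw [restrictNormalHom_apply_coe, hσF _ x.2, hg₀F]

end Lift

section Padic

variable (q : ℕ) [Fact q.Prime]
variable (F : IntermediateField ℚ (AlgebraicClosure ℚ)) [hFn : Normal ℚ F]

theorem padicPlace_liesOverPrime : (padicPlace q).LiesOverPrime q :=
  Fermat.Agent.S55.H175.primeLocalPlace_liesOverPrime ⟨q, Fact.out⟩

omit hFn in
theorem mem_levelPlace_padicPlace {x : F} :
    x ∈ levelPlace F (padicPlace q) ↔ ‖padicEmbedding q (x : AlgebraicClosure ℚ)‖ ≤ 1 := by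
  rw [mem_levelPlace, Fermat.Agent.S55.H175.mem_padicPlace_iff_norm]

/-- **The finite-level decomposition group.**  The image of `Gal(ℚ̄_q/ℚ_q)` in `Gal(F/ℚ)` is the
decomposition group of the valuation subring `{x ∈ F | ‖ι x‖ ≤ 1}` of `F`. -/
theorem decompositionAt_eq :
    decompositionAt q F = (levelPlace F (padicPlace q)).decompositionSubgroup ℚ := by
  rw [decompositionAt_eq_map]
  exact map_decompositionSubgroup F (padicPlace q) q Fact.out (padicPlace_liesOverPrime q)

/-- Membership in the finite-level decomposition group: isometries of `(F, ‖ι ·‖)`. -/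
theorem mem_decompositionAt_iff (σ : F ≃ₐ[ℚ] F) :
    σ ∈ decompositionAt q F ↔
      ∀ x : F, ‖padicEmbedding q ((σ x : F) : AlgebraicClosure ℚ)‖ ≤ 1 ↔
        ‖padicEmbedding q (x : AlgebraicClosure ℚ)‖ ≤ 1 := by
  rw [decompositionAt_eq, ValuationSubring.decompositionSubgroup, MulAction.mem_stabilizer_iff]
  constructor
  · intro h x
    rw [← mem_levelPlace_padicPlace, ← mem_levelPlace_padicPlace]
    have h2 : σ • x ∈ σ • levelPlace F (padicPlace q) ↔ x ∈ levelPlace F (padicPlace q) :=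
      ValuationSubring.smul_mem_pointwise_smul_iff
    rw [h] at h2
    exact h2
  · intro h
    ext x
    rw [ValuationSubring.mem_pointwise_smul_iff_inv_smul_mem, mem_levelPlace_padicPlace,
      mem_levelPlace_padicPlace]
    have h1 := h (σ⁻¹ • x)
    rw [show σ (σ⁻¹ • x) = x from by simp [AlgEquiv.smul_def]] at h1
    exact h1.symm

/-- Every element of the finite-level decomposition group comes from `Gal(F_q/ℚ_q)`. -/
theorem exists_local_of_mem_decompositionAt (σ : F ≃ₐ[ℚ] F)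
    (hσ : ∀ x : F, ‖padicEmbedding q ((σ x : F) : AlgebraicClosure ℚ)‖ ≤ 1 ↔
        ‖padicEmbedding q (x : AlgebraicClosure ℚ)‖ ≤ 1) :
    ∃ τ : PadicAlgCl q ≃ₐ[ℚ_[q]] PadicAlgCl q, toLevel q F τ = σ :=
  (mem_decompositionAt_iff q F σ).mpr hσ

end Padic

end Fermat.Agent.S55.Bridge.H175
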