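import Mathlib

set_option autoImplicit false
set_option linter.style.haveILetI false
set_option linter.unusedSectionVars false

/-!
# Invariants of `K'ˣ` under `Gal(K'/E)` are `Eˣ` (as Galois modules)

`K'/k` a Galois extension (possibly infinite), `E` a normal subextension (given as a type with
`Algebra k E`, `Algebra E K'`, `IsScalarTower k E K'`: no instance is hard-wired),
`N = ker (Gal(K'/k) → Gal(E/k)) = Gal(K'/E)`.  Then

* `quotEquiv : Gal(K'/k) ⧸ N ≃* Gal(E/k)`;
* `invUnitsEquiv : ((K'ˣ)^N as Rep ℤ (Gal(K'/k) ⧸ N)) ≃+ (Rep.ofAlgebraAutOnUnits k E).V`,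
  equivariant along `quotEquiv` (`invUnitsEquiv_ρ`).
-/

namespace Fermat.Agent.S55.Bridge.H175

open IntermediateField

section General

variable {k K' : Type} [Field k] [Field K'] [Algebra k K']

/-- The element of `K'` underlying a vector of the representation `K'ˣ`. -/
def uval (x : (Rep.ofAlgebraAutOnUnits k K').V) : K' :=
  ((Additive.toMul (show Additive K'ˣ from x) : K'ˣ) : K')

theorem uval_injective : Function.Injective (uval (k := k) (K' := K')) := by
  intro x y h
  have h1 : (Additive.toMul (show Additive K'ˣ from x) : K'ˣ) =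
      Additive.toMul (show Additive K'ˣ from y) := Units.ext h
  exact Additive.toMul.injective h1

theorem uval_ne_zero (x : (Rep.ofAlgebraAutOnUnits k K').V) : uval x ≠ 0 :=
  (Additive.toMul (show Additive K'ˣ from x) : K'ˣ).ne_zero

theorem uval_ρ (σ : K' ≃ₐ[k] K') (x : (Rep.ofAlgebraAutOnUnits k K').V) :
    uval ((Rep.ofAlgebraAutOnUnits k K').ρ σ x) = σ (uval x) := rfl

/-- The vector of the representation `K'ˣ` attached to a nonzero element. -/
def umk (a : K') (ha : a ≠ 0) : (Rep.ofAlgebraAutOnUnits k K').V :=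
  (show Additive K'ˣ from Additive.ofMul (Units.mk0 a ha))

theorem uval_umk (a : K') (ha : a ≠ 0) : uval (umk (k := k) a ha) = a := rfl

variable (E : Type) [Field E] [Algebra k E] [Algebra E K'] [IsScalarTower k E K']

/-- The inclusion `Eˣ → K'ˣ` on the level of representation spaces. -/
noncomputable def unitsIncl :
    (Rep.ofAlgebraAutOnUnits k E).V →+ (Rep.ofAlgebraAutOnUnits k K').V :=
  (show Additive Eˣ →+ Additive K'ˣ from
    MonoidHom.toAdditive (Units.map (algebraMap E K' : E →* K')))

theorem uval_unitsIncl (y : (Rep.ofAlgebraAutOnUnits k E).V) :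
    uval (unitsIncl (k := k) (K' := K') E y) = algebraMap E K' (uval y) := rfl

theorem unitsIncl_injective : Function.Injective (unitsIncl (k := k) (K' := K') E) := by
  intro y y' h
  have h1 := congrArg uval h
  rw [uval_unitsIncl, uval_unitsIncl] at h1
  exact uval_injective ((algebraMap E K').injective h1)

/-- A unit of `K'` lying in the image of `E` is the image of a unit of `E`. -/
theorem exists_unitsIncl_eq (x : (Rep.ofAlgebraAutOnUnits k K').V)
    (hx : ∃ a : E, algebraMap E K' a = uval x) :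
    ∃ y : (Rep.ofAlgebraAutOnUnits k E).V, unitsIncl (k := k) (K' := K') E y = x := by
  obtain ⟨a, ha⟩ := hx
  have ha0 : a ≠ 0 := by
    intro h
    rw [h, map_zero] at ha
    exact uval_ne_zero x ha.symm
  refine ⟨umk a ha0, ?_⟩
  apply uval_injective
  rw [uval_unitsIncl, uval_umk, ha]

variable [IsGalois k K'] [hE : Normal k E]
variable (N : Subgroup (K' ≃ₐ[k] K')) [hNn : N.Normal]

/-- `Gal(K'/k) ⧸ Gal(K'/E) ≃* Gal(E/k)`. -/
noncomputable def quotEquiv
    (hN : N = (AlgEquiv.restrictNormalHom (F := k) (K₁ := K') E).ker) :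
    (K' ≃ₐ[k] K') ⧸ N ≃* (E ≃ₐ[k] E) :=
  QuotientGroup.liftEquiv N (φ := AlgEquiv.restrictNormalHom (F := k) (K₁ := K') E)
    (AlgEquiv.restrictNormalHom_surjective (F := k) (K₁ := E) K') hN

theorem quotEquiv_mk (hN : N = (AlgEquiv.restrictNormalHom (F := k) (K₁ := K') E).ker)
    (σ : K' ≃ₐ[k] K') :
    quotEquiv E N hN (QuotientGroup.mk σ) = AlgEquiv.restrictNormalHom E σ := rfl

theorem quotEquiv_mk_apply (hN : N = (AlgEquiv.restrictNormalHom (F := k) (K₁ := K') E).ker)
    (σ : K' ≃ₐ[k] K') (x : E) :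
    algebraMap E K' (quotEquiv E N hN (QuotientGroup.mk σ) x) = σ (algebraMap E K' x) := by
  rw [quotEquiv_mk]
  exact AlgEquiv.restrictNormal_commutes σ E x

/-- `σ ∈ ker (Gal(K'/k) → Gal(E/k))` iff `σ` fixes the image of `E`. -/
theorem mem_ker_restrictNormalHom_iff (σ : K' ≃ₐ[k] K') :
    σ ∈ (AlgEquiv.restrictNormalHom (F := k) (K₁ := K') E).ker ↔
      ∀ a : E, σ (algebraMap E K' a) = algebraMap E K' a := by
  rw [MonoidHom.mem_ker]
  constructor
  · intro h a
    have h1 := AlgEquiv.restrictNormal_commutes σ E a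
    have h2 : AlgEquiv.restrictNormal σ E = 1 := h
    rw [h2] at h1
    exact h1.symm
  · intro h
    apply AlgEquiv.ext
    intro a
    apply (algebraMap E K').injective
    have h1 := AlgEquiv.restrictNormal_commutes σ E a
    exact h1.trans (h a)

/-- Membership in the invariants of `K'ˣ` under `N = Gal(K'/E)`. -/
theorem mem_invariants_units_iff
    (hN : N = (AlgEquiv.restrictNormalHom (F := k) (K₁ := K') E).ker)
    (x : (Rep.ofAlgebraAutOnUnits k K').V) :
    x ∈ Representation.invariants ((Rep.ofAlgebraAutOnUnits k K').ρ.comp N.subtype) ↔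
      ∃ a : E, algebraMap E K' a = uval x := by
  rw [Representation.mem_invariants]
  constructor
  · intro h
    have hmem : uval x ∈ (IsScalarTower.toAlgHom k E K').fieldRange := by
      rw [← InfiniteGalois.fixedField_fixingSubgroup (IsScalarTower.toAlgHom k E K').fieldRange,
        IntermediateField.mem_fixedField_iff]
      intro σ hσ
      have hσN : σ ∈ N := by
        rw [hN, mem_ker_restrictNormalHom_iff]
        intro a
        exact (IntermediateField.mem_fixingSubgroup_iff _ σ).mp hσ _ ⟨a, rfl⟩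
      have h1 := h ⟨σ, hσN⟩
      exact congrArg uval h1
    obtain ⟨a, ha⟩ := hmem
    exact ⟨a, ha⟩
  · rintro ⟨a, ha⟩ σ
    have hσ : ∀ b : E, (σ : K' ≃ₐ[k] K') (algebraMap E K' b) = algebraMap E K' b :=
      (mem_ker_restrictNormalHom_iff E _).mp (hN ▸ σ.2)
    apply uval_injective
    change (σ : K' ≃ₐ[k] K') (uval x) = uval x
    rw [← ha]
    exact hσ a

/-- The range of `Eˣ → K'ˣ` is the submodule of `N`-invariants. -/
theorem range_unitsIncl (hN : N = (AlgEquiv.restrictNormalHom (F := k) (K₁ := K') E).ker) :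
    (unitsIncl (k := k) (K' := K') E).range =
      (Representation.invariants
        ((Rep.ofAlgebraAutOnUnits k K').ρ.comp N.subtype)).toAddSubgroup := by
  ext x
  rw [Submodule.mem_toAddSubgroup, mem_invariants_units_iff E N hN]
  constructor
  · rintro ⟨y, rfl⟩
    exact ⟨uval y, (uval_unitsIncl E y).symm⟩
  · intro h
    exact exists_unitsIncl_eq E x h

/-- **`(K'ˣ)^N ≃+ Eˣ`.** -/
noncomputable def invUnitsEquiv
    (hN : N = (AlgEquiv.restrictNormalHom (F := k) (K₁ := K') E).ker) :
    ((Rep.ofAlgebraAutOnUnits k K').quotientToInvariants N).V ≃+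
      (Rep.ofAlgebraAutOnUnits k E).V :=
  ((AddEquiv.addSubgroupCongr (range_unitsIncl E N hN)).symm.trans
    (AddMonoidHom.ofInjective (unitsIncl_injective (k := k) (K' := K') E)).symm :
    ((Representation.invariants
      ((Rep.ofAlgebraAutOnUnits k K').ρ.comp N.subtype)).toAddSubgroup) ≃+
        (Rep.ofAlgebraAutOnUnits k E).V)

/-- The inclusion of the invariants into `K'ˣ`. -/
def invVal (x : ((Rep.ofAlgebraAutOnUnits k K').quotientToInvariants N).V) :
    (Rep.ofAlgebraAutOnUnits k K').V :=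
  (show ↥(Representation.invariants
    ((Rep.ofAlgebraAutOnUnits k K').ρ.comp N.subtype)) from x).1

theorem unitsIncl_invUnitsEquiv
    (hN : N = (AlgEquiv.restrictNormalHom (F := k) (K₁ := K') E).ker)
    (x : ((Rep.ofAlgebraAutOnUnits k K').quotientToInvariants N).V) :
    unitsIncl E (invUnitsEquiv E N hN x) = invVal N x := by
  have h := (AddMonoidHom.ofInjective (unitsIncl_injective (k := k) (K' := K') E)).apply_symm_apply
    ((AddEquiv.addSubgroupCongr (range_unitsIncl E N hN)).symm x)
  exact congrArg Subtype.val h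

theorem uval_invUnitsEquiv
    (hN : N = (AlgEquiv.restrictNormalHom (F := k) (K₁ := K') E).ker)
    (x : ((Rep.ofAlgebraAutOnUnits k K').quotientToInvariants N).V) :
    algebraMap E K' (uval (invUnitsEquiv E N hN x)) = uval (invVal N x) := by
  rw [← uval_unitsIncl, unitsIncl_invUnitsEquiv]

theorem invVal_ρ_mk (σ : K' ≃ₐ[k] K')
    (x : ((Rep.ofAlgebraAutOnUnits k K').quotientToInvariants N).V) :
    invVal N (((Rep.ofAlgebraAutOnUnits k K').quotientToInvariants N).ρ
      (QuotientGroup.mk σ) x) = (Rep.ofAlgebraAutOnUnits k K').ρ σ (invVal N x) := rfl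

/-- **Equivariance** of `(K'ˣ)^N ≃+ Eˣ` along `Gal(K'/k) ⧸ N ≃* Gal(E/k)`. -/
theorem invUnitsEquiv_ρ
    (hN : N = (AlgEquiv.restrictNormalHom (F := k) (K₁ := K') E).ker)
    (g : (K' ≃ₐ[k] K') ⧸ N)
    (x : ((Rep.ofAlgebraAutOnUnits k K').quotientToInvariants N).V) :
    invUnitsEquiv E N hN (((Rep.ofAlgebraAutOnUnits k K').quotientToInvariants N).ρ g x) =
      (Rep.ofAlgebraAutOnUnits k E).ρ (quotEquiv E N hN g) (invUnitsEquiv E N hN x) := by
  obtain ⟨σ, rfl⟩ := QuotientGroup.mk_surjective g
  apply unitsIncl_injective (k := k) (K' := K') E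
  rw [unitsIncl_invUnitsEquiv]
  apply uval_injective
  rw [uval_unitsIncl, uval_ρ, quotEquiv_mk_apply, uval_invUnitsEquiv, invVal_ρ_mk, uval_ρ]

end General

end Fermat.Agent.S55.Bridge.H175
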