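import Mathlib
import Fermat.Prelude.Def_GaloisRep_CompletionBridge
import Fermat.Agent.S55.Bridge.H175.DecompLevel

set_option autoImplicit false
set_option linter.style.haveILetI false

/-!
# B11, part 4: prime-ideal form of the finite-level decomposition group

* `primeOfPlace V : Ideal (𝓞 K)` : the prime of the ring of integers below a valuation subring;
* `decompositionSubgroup_eq_stabilizer` : for `K/ℚ` algebraic and `V` over a rational prime, the
  decomposition group of `V` is the stabiliser of `primeOfPlace V`;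
* `levelPrime q F` : the prime `{x ∈ 𝓞 F | ‖ι x‖ < 1}` of `𝓞 F`;
* `decompositionAt_eq_stabilizer` : the image of `Gal(ℚ̄_q/ℚ_q)` in `Gal(F/ℚ)` is the stabiliser
  of `levelPrime q F`.
-/

open scoped NNReal Pointwise NumberField

namespace Fermat.Agent.S55.Bridge.H175

section General

variable {K : Type*} [Field K]

/-- The prime of `𝓞 K` below a valuation subring `V` of `K`. -/
def primeOfPlace (V : ValuationSubring K) : Ideal (𝓞 K) where
  carrier := {b | (b : K) ∈ V.nonunits}
  add_mem' := fun {a b} ha hb => by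
    change algebraMap (𝓞 K) K (a + b) ∈ V.nonunits
    rw [map_add]
    exact V.nonunits.add_mem ha hb
  zero_mem' := by
    change algebraMap (𝓞 K) K 0 ∈ V.nonunits
    rw [map_zero]
    exact V.nonunits.zero_mem
  smul_mem' := fun c b hb => by
    change algebraMap (𝓞 K) K (c * b) ∈ V.nonunits
    rw [map_mul]
    obtain ⟨hb1, hb2⟩ := ValuationSubring.mem_nonunits_iff_exists_mem_maximalIdeal.mp hb
    have hc : (c : K) ∈ V :=
      Fermat.Agent.S54.isIntegral_mem_valuationSubring V (NumberField.RingOfIntegers.isIntegral_coe c)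
    have := Ideal.mul_mem_left _ (⟨(c : K), hc⟩ : V) hb2
    exact ValuationSubring.mem_nonunits_iff_exists_mem_maximalIdeal.mpr ⟨_, this⟩

theorem mem_primeOfPlace {V : ValuationSubring K} {b : 𝓞 K} :
    b ∈ primeOfPlace V ↔ (b : K) ∈ V.nonunits := Iff.rfl

theorem primeOfPlace_isPrime (V : ValuationSubring K) : (primeOfPlace V).IsPrime := by
  constructor
  · intro h
    have : (1 : 𝓞 K) ∈ primeOfPlace V := by rw [h]; trivial
    have h1 : algebraMap (𝓞 K) K 1 ∈ V.nonunits := this
    rw [map_one, ValuationSubring.mem_nonunits_iff] at h1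
    simp at h1
  · intro a b hab
    have hab' : algebraMap (𝓞 K) K (a * b) ∈ V.nonunits := hab
    rw [map_mul] at hab'
    replace hab : (a : K) * (b : K) ∈ V.nonunits := hab'
    rw [mem_primeOfPlace, mem_primeOfPlace]
    have ha : (a : K) ∈ V :=
      Fermat.Agent.S54.isIntegral_mem_valuationSubring V (NumberField.RingOfIntegers.isIntegral_coe a)
    have hb : (b : K) ∈ V :=
      Fermat.Agent.S54.isIntegral_mem_valuationSubring V (NumberField.RingOfIntegers.isIntegral_coe b)
    obtain ⟨h1, h2⟩ := ValuationSubring.mem_nonunits_iff_exists_mem_maximalIdeal.mp hab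
    have h3 : (⟨(a : K), ha⟩ : V) * ⟨(b : K), hb⟩ ∈ IsLocalRing.maximalIdeal V := h2
    rcases (IsLocalRing.maximalIdeal.isMaximal V).isPrime.mem_or_mem h3 with h | h
    · exact Or.inl (ValuationSubring.mem_nonunits_iff_exists_mem_maximalIdeal.mpr ⟨ha, h⟩)
    · exact Or.inr (ValuationSubring.mem_nonunits_iff_exists_mem_maximalIdeal.mpr ⟨hb, h⟩)

theorem natCast_mem_primeOfPlace {V : ValuationSubring K} {ℓ : ℕ} (hV : V.LiesOverPrime ℓ) :
    (ℓ : 𝓞 K) ∈ primeOfPlace V := by
  change algebraMap (𝓞 K) K (ℓ : 𝓞 K) ∈ V.nonunits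
  rw [map_natCast]
  exact hV

variable [CharZero K]

theorem coe_smul_ringOfIntegers (σ : K ≃ₐ[ℚ] K) (b : 𝓞 K) : ((σ • b : 𝓞 K) : K) = σ (b : K) :=
  rfl

variable [Algebra.IsAlgebraic ℚ K]

/-- **Decomposition group = stabiliser of the prime below.** -/
theorem decompositionSubgroup_eq_stabilizer (V : ValuationSubring K) (ℓ : ℕ) (hℓ : ℓ.Prime)
    (hV : V.LiesOverPrime ℓ) :
    V.decompositionSubgroup ℚ = MulAction.stabilizer (K ≃ₐ[ℚ] K) (primeOfPlace V) := by
  ext σ
  rw [ValuationSubring.decompositionSubgroup, MulAction.mem_stabilizer_iff,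
    MulAction.mem_stabilizer_iff]
  constructor
  · intro h
    have hmem : ∀ x : K, σ x ∈ V ↔ x ∈ V := by
      intro x
      have h2 : σ • x ∈ σ • V ↔ x ∈ V := ValuationSubring.smul_mem_pointwise_smul_iff
      rw [h] at h2
      exact h2
    have hinv : ∀ x : K, σ⁻¹ x ∈ V.nonunits ↔ x ∈ V.nonunits := by
      intro x
      have h3 := apply_mem_nonunits_iff V σ hmem (σ⁻¹ x)
      rw [show σ (σ⁻¹ x) = x from by simp [AlgEquiv.aut_inv]] at h3
      exact h3.symm
    ext b
    rw [Ideal.mem_pointwise_smul_iff_inv_smul_mem, mem_primeOfPlace, mem_primeOfPlace,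
      coe_smul_ringOfIntegers]
    exact hinv _
  · intro h
    apply smul_valuationSubring_eq_of_algebraic V ℓ hℓ hV
    intro b hb
    let b' : 𝓞 K := ⟨b, hb⟩
    have h1 : σ • b' ∈ σ • primeOfPlace V ↔ b' ∈ primeOfPlace V :=
      Ideal.smul_mem_pointwise_smul_iff
    rw [h] at h1
    exact h1

end General

section Padic

variable (q : ℕ) [Fact q.Prime]
variable (F : IntermediateField ℚ (AlgebraicClosure ℚ))

/-- The prime `{x ∈ 𝓞 F | ‖ι x‖ < 1}` of `𝓞 F` cut out by the `q`-adic place of `ℚ̄`. -/
noncomputable def levelPrime : Ideal (𝓞 F) := primeOfPlace (levelPlace F (padicPlace q))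

theorem levelPrime_isPrime : (levelPrime q F).IsPrime := primeOfPlace_isPrime _

theorem levelPlace_liesOverPrime : (levelPlace F (padicPlace q)).LiesOverPrime q := by
  have h := padicPlace_liesOverPrime q
  unfold ValuationSubring.LiesOverPrime at h ⊢
  rw [ValuationSubring.mem_nonunits_iff_or] at h ⊢
  rcases h with h | h
  · left
    exact_mod_cast h
  · right
    intro hc
    apply h
    have := (mem_levelPlace F).mp hc
    simpa using this

theorem natCast_mem_levelPrime : (q : 𝓞 F) ∈ levelPrime q F :=
  natCast_mem_primeOfPlace (levelPlace_liesOverPrime q F)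

theorem mem_levelPrime_iff {x : 𝓞 F} :
    x ∈ levelPrime q F ↔ ‖padicEmbedding q (((x : F)) : AlgebraicClosure ℚ)‖ < 1 := by
  unfold levelPrime
  rw [mem_primeOfPlace, ValuationSubring.mem_nonunits_iff_or]
  constructor
  · rintro (h | h)
    · rw [h]; simp
    · by_contra hc
      apply h
      rw [mem_levelPlace_padicPlace]
      push Not at hc
      rw [IntermediateField.coe_inv, map_inv₀, norm_inv]
      exact inv_le_one_of_one_le₀ hc
  · intro h
    by_cases h0 : (x : F) = 0
    · exact Or.inl h0
    · right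
      intro hc
      rw [mem_levelPlace_padicPlace, IntermediateField.coe_inv, map_inv₀, norm_inv] at hc
      have hpos : 0 < ‖padicEmbedding q (((x : F)) : AlgebraicClosure ℚ)‖ := by
        rw [norm_pos_iff]
        intro h1
        apply h0
        have h2 : (((x : F)) : AlgebraicClosure ℚ) = 0 := by
          apply Fermat.Agent.S55.H175.padicEmbedding_injective q
          rw [h1, map_zero]
        exact_mod_cast h2
      have := (inv_le_one₀ hpos).mp hc
      linarith

variable [hFn : Normal ℚ F]

/-- **The finite-level decomposition group is the stabiliser of the prime `levelPrime q F`.** -/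
theorem decompositionAt_eq_stabilizer :
    decompositionAt q F = MulAction.stabilizer (F ≃ₐ[ℚ] F) (levelPrime q F) := by
  have : Algebra.IsAlgebraic ℚ (AlgebraicClosure ℚ) := AlgebraicClosure.isAlgebraic ℚ
  have : Algebra.IsAlgebraic ℚ F := Algebra.IsAlgebraic.of_injective F.val F.val.injective
  rw [decompositionAt_eq]
  exact decompositionSubgroup_eq_stabilizer _ q Fact.out (levelPlace_liesOverPrime q F)

end Padic

end Fermat.Agent.S55.Bridge.H175
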