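import Mathlib
import Fermat.Prelude.Def_ExtEndgame_ProductionDatum
import Fermat.Agent.S55.Bridge.H175.LevelPrime

set_option autoImplicit false
set_option linter.style.haveILetI false

/-!
# B11, part 5: the finite-level dictionary for the Prelude's `primeLocalToGlobal`

Everything of `LocalLevel`, `LevelGalois`, `DecompLevel`, `LevelPrime` restated for
`q : Nat.Primes` and the Prelude objects `primeLocalGaloisGroup q`, `primeLocalToGlobal q`,
`primeLocalPlace q`.
-/

open scoped NNReal Pointwise NumberField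

namespace Fermat.Agent.S55.Bridge.H175

open ExtCitation

variable (q : Nat.Primes) (F : IntermediateField ℚ (AlgebraicClosure ℚ))

/-- The local level `F_q = ℚ_q · ι(F)` for `q : Nat.Primes`. -/
noncomputable def primeLocalLevel :
    letI : Fact (q : ℕ).Prime := ⟨q.2⟩
    IntermediateField ℚ_[(q : ℕ)] (PadicAlgCl (q : ℕ)) :=
  letI : Fact (q : ℕ).Prime := ⟨q.2⟩
  localLevel (q : ℕ) F

theorem finiteDimensional_primeLocalLevel [FiniteDimensional ℚ F] :
    letI : Fact (q : ℕ).Prime := ⟨q.2⟩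
    FiniteDimensional ℚ_[(q : ℕ)] (primeLocalLevel q F) :=
  letI : Fact (q : ℕ).Prime := ⟨q.2⟩
  finiteDimensional_localLevel (q : ℕ) F

theorem isGalois_primeLocalLevel [Normal ℚ F] :
    letI : Fact (q : ℕ).Prime := ⟨q.2⟩
    IsGalois ℚ_[(q : ℕ)] (primeLocalLevel q F) :=
  letI : Fact (q : ℕ).Prime := ⟨q.2⟩
  isGalois_localLevel (q : ℕ) F

/-- **`(primeLocalToGlobal q)⁻¹(G_F) = Gal(ℚ̄_q/F_q)`.** -/
theorem comap_primeLocalToGlobal_fixingSubgroup :
    letI : Fact (q : ℕ).Prime := ⟨q.2⟩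
    F.fixingSubgroup.comap (primeLocalToGlobal q) = (primeLocalLevel q F).fixingSubgroup :=
  letI : Fact (q : ℕ).Prime := ⟨q.2⟩
  comap_fixingSubgroup (q : ℕ) F

/-- An element of the local Galois group restricts to `G_F` iff it fixes `ι(F)` pointwise. -/
theorem primeLocalToGlobal_mem_fixingSubgroup_iff
    (τ : letI : Fact (q : ℕ).Prime := ⟨q.2⟩
      PadicAlgCl (q : ℕ) ≃ₐ[ℚ_[(q : ℕ)]] PadicAlgCl (q : ℕ)) :
    letI : Fact (q : ℕ).Prime := ⟨q.2⟩
    primeLocalToGlobal q τ ∈ F.fixingSubgroup ↔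
      ∀ x ∈ F, τ (padicEmbedding (q : ℕ) x) = padicEmbedding (q : ℕ) x := by
  letI : Fact (q : ℕ).Prime := ⟨q.2⟩
  rw [IntermediateField.mem_fixingSubgroup_iff]
  constructor
  · intro h x hx
    have h1 := h x hx
    have h2 := padicEmbedding_localGaloisToGlobal (q : ℕ) τ x
    rw [← h2]
    exact congrArg _ h1
  · intro h x hx
    apply Fermat.Agent.S55.H175.padicEmbedding_injective (q : ℕ)
    have h2 := padicEmbedding_localGaloisToGlobal (q : ℕ) τ x
    exact h2.trans (h x hx)

section Normal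

variable [hFn : Normal ℚ F]

/-- `Gal(ℚ̄_q/ℚ_q) → Gal(F/ℚ)` for `q : Nat.Primes`. -/
noncomputable def primeToLevel : primeLocalGaloisGroup q →* (F ≃ₐ[ℚ] F) :=
  (AlgEquiv.restrictNormalHom (F := ℚ) (K₁ := AlgebraicClosure ℚ) F).comp (primeLocalToGlobal q)

theorem primeToLevel_apply_coe (τ : primeLocalGaloisGroup q) (x : F) :
    ((primeToLevel q F τ x : F) : AlgebraicClosure ℚ) =
      primeLocalToGlobal q τ (x : AlgebraicClosure ℚ) :=
  AlgEquiv.restrictNormal_commutes (primeLocalToGlobal q τ) F x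

theorem primeToLevel_eq_toLevel :
    letI : Fact (q : ℕ).Prime := ⟨q.2⟩
    primeToLevel q F = toLevel (q : ℕ) F := rfl

omit hFn in
/-- The prime of `𝓞 F` below the Prelude place `primeLocalPlace q`. -/
noncomputable def primeLevelPrime : Ideal (𝓞 F) := primeOfPlace (levelPlace F (primeLocalPlace q))

omit hFn in
theorem primeLevelPrime_isPrime : (primeLevelPrime q F).IsPrime := primeOfPlace_isPrime _

omit hFn in
theorem natCast_mem_primeLevelPrime : ((q : ℕ) : 𝓞 F) ∈ primeLevelPrime q F :=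
  letI : Fact (q : ℕ).Prime := ⟨q.2⟩
  natCast_mem_levelPrime (q : ℕ) F

/-- **The image of the local Galois group in `Gal(F/ℚ)` is the decomposition group** of the
valuation subring `primeLocalPlace q ∩ F`. -/
theorem range_primeToLevel :
    (primeToLevel q F).range = (levelPlace F (primeLocalPlace q)).decompositionSubgroup ℚ :=
  letI : Fact (q : ℕ).Prime := ⟨q.2⟩
  decompositionAt_eq (q : ℕ) F

/-- **The image of the local Galois group in `Gal(F/ℚ)` is the stabiliser of the prime**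
`primeLevelPrime q F` of `𝓞 F`. -/
theorem range_primeToLevel_eq_stabilizer :
    (primeToLevel q F).range = MulAction.stabilizer (F ≃ₐ[ℚ] F) (primeLevelPrime q F) :=
  letI : Fact (q : ℕ).Prime := ⟨q.2⟩
  decompositionAt_eq_stabilizer (q : ℕ) F

/-- **`ker (Gal(ℚ̄_q/ℚ_q) → Gal(F/ℚ)) = Gal(ℚ̄_q/F_q)`.** -/
theorem ker_primeToLevel :
    letI : Fact (q : ℕ).Prime := ⟨q.2⟩
    (primeToLevel q F).ker = (primeLocalLevel q F).fixingSubgroup :=
  letI : Fact (q : ℕ).Prime := ⟨q.2⟩
  ker_toLevel (q : ℕ) F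

/-- The order of the finite-level decomposition group is the local degree `[F_q : ℚ_q]`. -/
theorem card_range_primeToLevel [FiniteDimensional ℚ F] :
    letI : Fact (q : ℕ).Prime := ⟨q.2⟩
    Nat.card (primeToLevel q F).range = Module.finrank ℚ_[(q : ℕ)] (primeLocalLevel q F) :=
  letI : Fact (q : ℕ).Prime := ⟨q.2⟩
  card_decompositionAt (q : ℕ) F

end Normal

end Fermat.Agent.S55.Bridge.H175
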