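import Mathlib
import Fermat.Agent.S55.Spec.Tower
import Fermat.Agent.S54.FrobLift
import Fermat.Agent.S55.Bridge.H175.PrimeLevel
import Fermat.Agent.S55.Bridge.H175.InvUnits

set_option autoImplicit false
set_option linter.style.haveILetI false
set_option linter.unusedSectionVars false

/-!
# B15: dictionary between the tower `Tow.Level` and concrete Galois groups / unit groups

For `L : Tow.Level S` with field `F = L.F`, and `q : Nat.Primes` with local level
`E = F_q = primeLocalLevel q F`: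

* `level_isGalois`, `level_normal`, `level_finiteDimensional`;
* `galEquiv L : L.Gal ≃* Gal(F/ℚ)`, `unitsEquiv L : L.units ≃+ Fˣ` (equivariant);
* `decEquiv L q : L.Dec q ≃* Gal(E/ℚ_q)`, `locUnitsEquiv L q : L.locUnits q ≃+ Eˣ` (equivariant);
* `galEquiv_decHom`, `decHom_injective`, `map_range_decHom` (image of the decomposition group =
  stabiliser of the prime `primeLevelPrime q F` of `𝓞 F`).
-/

open scoped NNReal Pointwise NumberField

namespace Fermat.Agent.S55.Bridge.H175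

open ExtCitation Fermat.Agent.S55

variable {S : Finset Nat.Primes} (L : Tow.Level S) (q : Nat.Primes)

/-! ### The global side -/

theorem level_finiteDimensional : FiniteDimensional ℚ L.F := L.unram.1

theorem level_isGalois : IsGalois ℚ L.F := by
  have hgal := Fermat.Agent.S54.isGalois_algebraicClosure_rat
  exact (InfiniteGalois.normal_iff_isGalois L.F).mp L.normalU

theorem level_normal : Normal ℚ L.F := (level_isGalois L).to_normal

theorem level_U_eq :
    haveI := level_normal L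
    L.U = (AlgEquiv.restrictNormalHom (F := ℚ) (K₁ := AlgebraicClosure ℚ) L.F).ker := by
  exact (@IntermediateField.restrictNormalHom_ker _ _ _ _ _ L.F (level_normal L)).symm

/-- `Gal(ℚ̄/ℚ) ⧸ Gal(ℚ̄/F) ≃* Gal(F/ℚ)`. -/
noncomputable def galEquiv : L.Gal ≃* (L.F ≃ₐ[ℚ] L.F) :=
  haveI := Fermat.Agent.S54.isGalois_algebraicClosure_rat
  haveI := level_normal L
  quotEquiv L.F L.U (level_U_eq L)

theorem galEquiv_mk_apply_coe (σ : Tow.GQ) (x : L.F) :
    ((galEquiv L (QuotientGroup.mk σ) x : L.F) : AlgebraicClosure ℚ) =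
      σ (x : AlgebraicClosure ℚ) :=
  haveI := Fermat.Agent.S54.isGalois_algebraicClosure_rat
  haveI := level_normal L
  quotEquiv_mk_apply L.F L.U (level_U_eq L) σ x

/-- `(ℚ̄ˣ)^{Gal(ℚ̄/F)} ≃+ Fˣ`. -/
noncomputable def unitsEquiv : (L.units).V ≃+ (Rep.ofAlgebraAutOnUnits ℚ L.F).V :=
  haveI := Fermat.Agent.S54.isGalois_algebraicClosure_rat
  haveI := level_normal L
  invUnitsEquiv L.F L.U (level_U_eq L)

/-- Equivariance of `unitsEquiv` along `galEquiv`. -/
theorem unitsEquiv_ρ (g : L.Gal) (x : (L.units).V) :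
    unitsEquiv L ((L.units).ρ g x) =
      (Rep.ofAlgebraAutOnUnits ℚ L.F).ρ (galEquiv L g) (unitsEquiv L x) :=
  haveI := Fermat.Agent.S54.isGalois_algebraicClosure_rat
  haveI := level_normal L
  invUnitsEquiv_ρ L.F L.U (level_U_eq L) g x

/-! ### The local side -/

theorem isGalois_padicAlgCl' :
    letI : Fact (q : ℕ).Prime := ⟨q.2⟩
    IsGalois ℚ_[(q : ℕ)] (PadicAlgCl (q : ℕ)) := by
  letI : Fact (q : ℕ).Prime := ⟨q.2⟩
  haveI := normal_padicAlgCl (q : ℕ)
  exact isGalois_iff.mpr ⟨inferInstance, inferInstance⟩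

theorem normal_primeLocalLevel :
    letI : Fact (q : ℕ).Prime := ⟨q.2⟩
    Normal ℚ_[(q : ℕ)] (primeLocalLevel q L.F) := by
  letI : Fact (q : ℕ).Prime := ⟨q.2⟩
  haveI := level_normal L
  exact normal_localLevel (q : ℕ) L.F

/-- `L.V q = Gal(ℚ̄_q/F_q)`. -/
theorem level_V_eq_fixingSubgroup :
    letI : Fact (q : ℕ).Prime := ⟨q.2⟩
    L.V q = (primeLocalLevel q L.F).fixingSubgroup :=
  comap_primeLocalToGlobal_fixingSubgroup q L.F

theorem level_V_eq :
    letI : Fact (q : ℕ).Prime := ⟨q.2⟩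
    haveI := normal_primeLocalLevel L q
    L.V q = (AlgEquiv.restrictNormalHom (F := ℚ_[(q : ℕ)]) (K₁ := PadicAlgCl (q : ℕ))
      (primeLocalLevel q L.F)).ker := by
  letI : Fact (q : ℕ).Prime := ⟨q.2⟩
  haveI := normal_primeLocalLevel L q
  exact (level_V_eq_fixingSubgroup L q).trans
    (IntermediateField.restrictNormalHom_ker (primeLocalLevel q L.F)).symm

/-- `Gal(ℚ̄_q/ℚ_q) ⧸ Gal(ℚ̄_q/F_q) ≃* Gal(F_q/ℚ_q)`. -/
noncomputable def decEquiv :
    letI : Fact (q : ℕ).Prime := ⟨q.2⟩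
    L.Dec q ≃* (primeLocalLevel q L.F ≃ₐ[ℚ_[(q : ℕ)]] primeLocalLevel q L.F) :=
  letI : Fact (q : ℕ).Prime := ⟨q.2⟩
  haveI := isGalois_padicAlgCl' q
  haveI := normal_primeLocalLevel L q
  quotEquiv (hNn := Tow.Level.normalV L q) (primeLocalLevel q L.F) (L.V q) (level_V_eq L q)

theorem decEquiv_mk_apply_coe
    (τ : letI : Fact (q : ℕ).Prime := ⟨q.2⟩
      PadicAlgCl (q : ℕ) ≃ₐ[ℚ_[(q : ℕ)]] PadicAlgCl (q : ℕ))
    (y : letI : Fact (q : ℕ).Prime := ⟨q.2⟩
      primeLocalLevel q L.F) :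
    letI : Fact (q : ℕ).Prime := ⟨q.2⟩
    ((decEquiv L q (QuotientGroup.mk τ) y : primeLocalLevel q L.F) : PadicAlgCl (q : ℕ)) =
      τ (y : PadicAlgCl (q : ℕ)) :=
  letI : Fact (q : ℕ).Prime := ⟨q.2⟩
  haveI := isGalois_padicAlgCl' q
  haveI := normal_primeLocalLevel L q
  quotEquiv_mk_apply (hNn := Tow.Level.normalV L q) (primeLocalLevel q L.F) (L.V q)
    (level_V_eq L q) τ y

/-- `(ℚ̄_qˣ)^{Gal(ℚ̄_q/F_q)} ≃+ F_qˣ`. -/
noncomputable def locUnitsEquiv :
    letI : Fact (q : ℕ).Prime := ⟨q.2⟩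
    (L.locUnits q).V ≃+ (Rep.ofAlgebraAutOnUnits ℚ_[(q : ℕ)] (primeLocalLevel q L.F)).V :=
  letI : Fact (q : ℕ).Prime := ⟨q.2⟩
  haveI := isGalois_padicAlgCl' q
  haveI := normal_primeLocalLevel L q
  invUnitsEquiv (hNn := Tow.Level.normalV L q) (primeLocalLevel q L.F) (L.V q) (level_V_eq L q)

/-- Equivariance of `locUnitsEquiv` along `decEquiv`. -/
theorem locUnitsEquiv_ρ (g : L.Dec q) (x : (L.locUnits q).V) :
    letI : Fact (q : ℕ).Prime := ⟨q.2⟩
    locUnitsEquiv L q ((L.locUnits q).ρ g x) =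
      (Rep.ofAlgebraAutOnUnits ℚ_[(q : ℕ)] (primeLocalLevel q L.F)).ρ (decEquiv L q g)
        (locUnitsEquiv L q x) :=
  letI : Fact (q : ℕ).Prime := ⟨q.2⟩
  haveI := isGalois_padicAlgCl' q
  haveI := normal_primeLocalLevel L q
  invUnitsEquiv_ρ (hNn := Tow.Level.normalV L q) (primeLocalLevel q L.F) (L.V q)
    (level_V_eq L q) g x

/-! ### Compatibility of the two sides -/

/-- `galEquiv ∘ decHom ∘ mk = primeToLevel` : the decomposition map of the tower is restriction
of automorphisms along `ι : F → F_q`. -/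
theorem galEquiv_decHom_mk (τ : Tow.GQp q) :
    galEquiv L (L.decHom q (QuotientGroup.mk τ)) =
      @primeToLevel q L.F (level_normal L) τ := rfl

/-- `ι (galEquiv (decHom g) x) = decEquiv g (ι x)` for `x ∈ F`. -/
theorem padicEmbedding_galEquiv_decHom (g : L.Dec q) (x : L.F) :
    letI : Fact (q : ℕ).Prime := ⟨q.2⟩
    padicEmbedding (q : ℕ) ((galEquiv L (L.decHom q g) x : L.F) : AlgebraicClosure ℚ) =
      ((decEquiv L q g ⟨padicEmbedding (q : ℕ) (x : AlgebraicClosure ℚ),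
        padicEmbedding_mem_localLevel x.2⟩ : primeLocalLevel q L.F) : PadicAlgCl (q : ℕ)) := by
  letI : Fact (q : ℕ).Prime := ⟨q.2⟩
  obtain ⟨τ, rfl⟩ := QuotientGroup.mk_surjective g
  have h1 := decEquiv_mk_apply_coe L q τ
    ⟨padicEmbedding (q : ℕ) (x : AlgebraicClosure ℚ), padicEmbedding_mem_localLevel x.2⟩
  have h2 := @padicEmbedding_toLevel (q : ℕ) _ L.F (level_normal L) τ x
  exact h2.trans h1.symm

/-- The decomposition map `Gal(F_q/ℚ_q) → Gal(F/ℚ)` of the tower is injective. -/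
theorem decHom_injective : Function.Injective (L.decHom q) := by
  rw [injective_iff_map_eq_one]
  intro g hg
  obtain ⟨τ, rfl⟩ := QuotientGroup.mk_surjective g
  have h1 : (QuotientGroup.mk (Tow.locQ q τ) : L.Gal) = 1 := hg
  rw [QuotientGroup.eq_one_iff] at h1
  exact (QuotientGroup.eq_one_iff τ).mpr h1

/-- **The image of the decomposition group of the tower in `Gal(F/ℚ)` is the stabiliser of the
prime `primeLevelPrime q F` of `𝓞 F`.** -/
theorem map_range_decHom :
    (L.decHom q).range.map (galEquiv L).toMonoidHom =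
      MulAction.stabilizer (L.F ≃ₐ[ℚ] L.F) (primeLevelPrime q L.F) := by
  haveI := level_normal L
  rw [← range_primeToLevel_eq_stabilizer q L.F]
  ext σ
  constructor
  · rintro ⟨_, ⟨g, rfl⟩, rfl⟩
    obtain ⟨τ, rfl⟩ := QuotientGroup.mk_surjective g
    exact ⟨τ, (galEquiv_decHom_mk L q τ).symm⟩
  · rintro ⟨τ, rfl⟩
    exact ⟨_, ⟨QuotientGroup.mk τ, rfl⟩, galEquiv_decHom_mk L q τ⟩

/-- Cardinality of the decomposition group of the tower: the local degree `[F_q : ℚ_q]`. -/
theorem card_dec :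
    letI : Fact (q : ℕ).Prime := ⟨q.2⟩
    Nat.card (L.Dec q) = Module.finrank ℚ_[(q : ℕ)] (primeLocalLevel q L.F) := by
  letI : Fact (q : ℕ).Prime := ⟨q.2⟩
  haveI := level_normal L
  haveI := level_finiteDimensional L
  haveI := finiteDimensional_localLevel (q : ℕ) L.F
  haveI := isGalois_localLevel (q : ℕ) L.F
  rw [Nat.card_congr (decEquiv L q).toEquiv]
  exact IsGalois.card_aut_eq_finrank ℚ_[(q : ℕ)] (localLevel (q : ℕ) L.F)

/-- Cardinality of the Galois group of the tower. -/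
theorem card_gal : Nat.card L.Gal = Module.finrank ℚ L.F := by
  haveI := level_isGalois L
  haveI := level_finiteDimensional L
  rw [Nat.card_congr (galEquiv L).toEquiv]
  exact IsGalois.card_aut_eq_finrank ℚ L.F

end Fermat.Agent.S55.Bridge.H175
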